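import Fermat.Agent.S48.H88.SwapF1
import Fermat.Agent.S48.H428.NormGenG
import Fermat.Agent.S48.H136.RawES1

/-!
# S48 / Tower A1, piece A1-NORM (helper88), part 3: NORMID1 from FF-DIA and the degree bound

`normIdG_F1` : for `p` prime, `p ∤ M`, `M ≠ 0`:

  (∃ σ, IsDiamond ℚ̄ M p σ)  ∧  `[ℚ̄·F1(M; p) : α (ℚ̄·F1 M)] ≤ p + 1`   ⟹
      `H136.NormIdG (alpha1) (beta1) p (diamondAut ℚ̄ M p)`,

i.e. `Nm_α (β y) = V_p y · det (secMat p (δ_p y))`.  The `p` embeddings are `y ↦ (w y)(ζ^b q)`,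
`w` the analytic swap of `SwapF1.lean`; the generic field theory is `H428.normIdG_of_embeddings_jq`.

`normId1_of` : the statement `H136.NormId1Statement` from the two inputs.
-/

set_option autoImplicit false
set_option linter.style.haveILetI false

noncomputable section

open ModularCurve AlgebraicCurve HahnSeries

namespace Fermat.Agent.S48.H88

open Fermat.Agent.S18 (Qb)
open Fermat.Agent.S48.F1 Fermat.Agent.S48.H136 Fermat.Agent.S37

/-- the twisted swaps `y ↦ (w y)(ζ^b q)` -/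
def twSwap {M p : ℕ} [NeZero p] (w : F1pL Qb M p →ₐ[Qb] LaurentSeries Qb) {ζ : Qb}
    (hζ : ζ ^ p = 1) (b : Fin p) : F1pL Qb M p →+* LaurentSeries Qb :=
  (H340.twHom p (ζ ^ (b : ℕ)) (H340.pow_pow_eq_one hζ b)).comp
    (w : F1pL Qb M p →+* LaurentSeries Qb)

theorem twSwap_apply {M p : ℕ} [NeZero p] (w : F1pL Qb M p →ₐ[Qb] LaurentSeries Qb) {ζ : Qb}
    (hζ : ζ ^ p = 1) (b : Fin p) (x : F1pL Qb M p) :
    twSwap w hζ b x = H340.tw p (ζ ^ (b : ℕ)) (w x) := rfl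

theorem val_alpha1 (M p : ℕ) [NeZero p] (y : F1L Qb M) :
    (F1pL Qb M p).val.toRingHom (alpha1 Qb M p y) = (y : LaurentSeries Qb) :=
  coe_alpha1 Qb M p y

theorem val_beta1 (M p : ℕ) [NeZero p] (y : F1L Qb M) :
    (F1pL Qb M p).val.toRingHom (beta1 Qb M p y) = qExpand Qb p (y : LaurentSeries Qb) :=
  coe_beta1 Qb M p y

/-- **NORMID1** from the existence of the diamond automorphism and the degree bound. -/
theorem normIdG_F1 (M p : ℕ) [NeZero p] (hM : M ≠ 0) (hp : p.Prime) (hpM : ¬ p ∣ M)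
    (hdia : ∃ σ : F1L Qb M ≃ₐ[Qb] F1L Qb M, IsDiamond Qb M (unitOf M p) σ)
    (hfin : FiniteAlong Qb (alpha1 Qb M p)) (hdeg : finrankAlong Qb (alpha1 Qb M p) ≤ p + 1) :
    NormIdG (alpha1 Qb M p) (beta1 Qb M p) p (diamondAut Qb M (unitOf M p)) := by
  haveI : NeZero M := ⟨hM⟩
  have hδ := isDiamond_diamondAut Qb M (unitOf M p) hdia
  obtain ⟨w, hwα, hwβ⟩ :=
    exists_swap_F1 M p ((Nat.Prime.coprime_iff_not_dvd hp).mpr hpM) _ hδ
  obtain ⟨ζ, hζ⟩ := HasEnoughRootsOfUnity.exists_primitiveRoot Qb p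
  have hσα : ∀ (b : Fin p) (y : F1L Qb M), twSwap w hζ.pow_eq_one b (alpha1 Qb M p y)
      = RingHom.id (LaurentSeries Qb) (qExpand Qb p (y : LaurentSeries Qb)) := by
    intro b y
    rw [twSwap_apply, hwα, H340.tw_qExpand]
    rfl
  have hσβ : ∀ (b : Fin p) (y : F1L Qb M), twSwap w hζ.pow_eq_one b (beta1 Qb M p y)
      = RingHom.id (LaurentSeries Qb) (H340.tw p (ζ ^ (b : ℕ))
          ((diamondAut Qb M (unitOf M p) y : F1L Qb M) : LaurentSeries Qb)) := by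
    intro b y
    rw [twSwap_apply, hwβ]
    rfl
  have hδj : ∀ y : F1L Qb M, (y : LaurentSeries Qb) = coeffEmb Qb jq →
      diamondAut Qb M (unitOf M p) y = y := by
    intro y hy
    refine hδ.1 y ?_
    rw [hy]
    have hj : jq ∈ modularFunctionFieldFull M := by
      have h := IntermediateField.subset_adjoin ℚ _ (mem_divisorExpansions M (one_dvd M))
      rwa [qExpand_one_apply] at h
    exact coeffEmb_mem_laurentBaseChange Qb hj
  exact Fermat.Agent.S48.H428.normIdG_of_embeddings_jq (alpha1 Qb M p) (beta1 Qb M p) hp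
    (diamondAut Qb M (unitOf M p)) (F1pL Qb M p).val.toRingHom (val_alpha1 M p) (val_beta1 M p)
    hfin hdeg hζ (RingHom.id (LaurentSeries Qb)) (twSwap w hζ.pow_eq_one) hσα hσβ
    (jq_mem_F1 M) hδj

/-- **NORMID1** (`H136.NormId1Statement`) from FF-DIA and the degree bound. -/
theorem normId1_of
    (hdia : ∀ (M p : ℕ), M ≠ 0 → p.Prime → ¬ p ∣ M →
      ∃ σ : F1L Qb M ≃ₐ[Qb] F1L Qb M, IsDiamond Qb M (unitOf M p) σ)
    (hdeg : ∀ (M p : ℕ) [NeZero p], M ≠ 0 → p.Prime → ¬ p ∣ M →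
      FiniteAlong Qb (alpha1 Qb M p) ∧ finrankAlong Qb (alpha1 Qb M p) ≤ p + 1) :
    NormId1Statement := by
  intro M p _ hM hp hpM
  exact normIdG_F1 M p hM hp hpM (hdia M p hM hp hpM) (hdeg M p hM hp hpM).1
    (hdeg M p hM hp hpM).2

end Fermat.Agent.S48.H88
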