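import Fermat.Agent.S48.H88.DegRel
import Fermat.Agent.S48.H88.NormId1
import Fermat.Agent.S48.H332.F1Inst
import Fermat.Agent.Lib.X0Deg.Alpha

/-!
# S48 / Tower A1, piece A1-NORM (helper88), part 5: `[ℚ̄·F1(M; p) : ℚ̄·F1(M)] ≤ p + 1`, NORMID1

* `finrankAlong_alpha1_le` : for `p` prime, `p ∤ M`: the degeneracy map `alpha1` is finite of degree
  `≤ p + 1` (from helper332's `f1Data M`, extended by `V_p`, `DegRel.lean`);
* `normId1_of_dia` : **NORMID1** (`H136.NormId1Statement`) from FF-DIA alone.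
-/

set_option autoImplicit false
set_option linter.style.haveILetI false

noncomputable section

open ModularCurve AlgebraicCurve HahnSeries CongruenceSubgroup
open scoped MatrixGroups

namespace Fermat.Agent.S48.H88

open Fermat.Agent.S24 Fermat.Agent.S48.F1 Fermat.Agent.S48.H332 Fermat.Agent.S48.H136

/-- conjugation by `[p,0;0,1]` maps `±Γ₁(M) ⊓ Γ₀(p)` into `±Γ₁(M)` (`p` prime to `M`) -/
theorem conjStable_pmGamma1 (M p : ℕ) (hpM : Nat.Coprime p M) : ConjStable (pmGamma1 M) p := by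
  intro g hg g' h00 h01 h10 h11
  refine ⟨?_, ?_⟩
  · rw [Gamma0_mem]
    have hg0 : ((g 1 0 : ℤ) : ZMod M) = 0 := Gamma0_mem.mp hg.1
    rw [← h10] at hg0
    push_cast at hg0
    have hu : IsUnit ((p : ℕ) : ZMod M) := (ZMod.isUnit_iff_coprime p M).mpr hpM
    exact (hu.mul_right_eq_zero).mp hg0
  · rw [h00]
    exact hg.2

theorem F1pL_eq_adjoin (M p : ℕ) [NeZero p] :
    F1pL Kbar M p = IntermediateField.adjoin Kbar (gensF1p M p) := by
  apply le_antisymm (F1pL_le_adjoin M p)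
  rw [IntermediateField.adjoin_le_iff]
  rintro x (⟨z, hz, rfl⟩ | ⟨_, ⟨z, hz, rfl⟩, rfl⟩)
  · have hzF : z ∈ F1 M := IntermediateField.subset_adjoin ℚ (gensF1 M) hz
    exact coeffEmb_mem_laurentBaseChange Kbar (F1_le_F1p M p hzF)
  · have hzF : z ∈ F1 M := IntermediateField.subset_adjoin ℚ (gensF1 M) hz
    show qExpand Kbar p (coeffEmb Kbar z) ∈ laurentBaseChange Kbar (F1p M p)
    rw [qExpand_coeffEmb]
    exact coeffEmb_mem_laurentBaseChange Kbar (qExpand_mem_F1p M p hzF)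

/-- `ℚ̄·F1(M; p)` as a generic field -/
def f1pField (M p : ℕ) [NeZero p] : GenField where
  S := gensF1p M p
  F := F1pL Kbar M p
  hF := F1pL_eq_adjoin M p
  hj := Or.inl ⟨jq, jq_mem_f1Gens M, rfl⟩

theorem index_Gamma0_prime {p : ℕ} (hp : p.Prime) : (Gamma0 p).index = p + 1 := by
  rw [Fermat.Agent.S20.H872.index_Gamma0 p hp.ne_zero]
  have h := Fermat.Agent.S20.H872.dedekindPsi_mul_prime_of_not_dvd (N := 1) one_ne_zero hp
    (fun h => hp.one_lt.ne' (Nat.dvd_one.mp h))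
  rw [one_mul, dedekindPsi_one, mul_one] at h
  exact h

/-- **The relative degree** `[ℚ̄·F1(M; p) : ℚ̄·F1(M)]` is positive and `≤ p + 1`. -/
theorem relfinrank_F1L_F1pL (M p : ℕ) [NeZero M] [NeZero p] (hp : p.Prime)
    (hpM : Nat.Coprime p M) :
    0 < (F1L Kbar M).relfinrank (F1pL Kbar M p) ∧
      (F1L Kbar M).relfinrank (F1pL Kbar M p) ≤ p + 1 := by
  have h := relfinrank_extV (f1Data M) p (conjStable_pmGamma1 M p hpM) (f1pField M p) rfl
  rw [index_Gamma0_prime hp] at h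
  exact h

/-- **DEG**: the degeneracy map `α` is finite of degree `≤ p + 1`. -/
theorem finrankAlong_alpha1_le (M p : ℕ) [NeZero p] (hM : M ≠ 0) (hp : p.Prime)
    (hpM : ¬ p ∣ M) :
    FiniteAlong Kbar (alpha1 Kbar M p) ∧ finrankAlong Kbar (alpha1 Kbar M p) ≤ p + 1 := by
  haveI : NeZero M := ⟨hM⟩
  obtain ⟨h1, h2⟩ := relfinrank_F1L_F1pL M p hp ((Nat.Prime.coprime_iff_not_dvd hp).mpr hpM)
  have hle : F1L Kbar M ≤ F1pL Kbar M p := lbc_mono Kbar (F1_le_F1p M p)
  refine ⟨Fermat.Agent.Lib.X0Deg.finiteAlong_inclusion hle h1, ?_⟩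
  have h3 := Fermat.Agent.Lib.X0Deg.finrankAlong_inclusion hle
  show finrankAlong Kbar (IntermediateField.inclusion hle) ≤ p + 1
  rw [h3]
  exact h2

/-- **NORMID1** (`H136.NormId1Statement`) from FF-DIA (existence of the diamond automorphisms). -/
theorem normId1_of_dia
    (hdia : ∀ (M p : ℕ), M ≠ 0 → p.Prime → ¬ p ∣ M →
      ∃ σ : F1L Kbar M ≃ₐ[Kbar] F1L Kbar M, IsDiamond Kbar M (unitOf M p) σ) :
    NormId1Statement :=
  normId1_of hdia fun M p _ hM hp hpM => finrankAlong_alpha1_le M p hM hp hpM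

end Fermat.Agent.S48.H88
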