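import Fermat.Agent.S48.H332.PkgDeg
import Fermat.Agent.S20.H872.Index

/-!
# S48 / Tower A1, piece A1-NORM (helper88), part 4: the relative degree `[ℚ̄(S, V_p S) : ℚ̄(S)]`

GENERIC extension of helper332's `GenData` (analytic input for a field `ℚ̄(S)` of modular functions
for `Γ`, level `M`) by `V_p : q ↦ q^p`:

* `GenData.extV` : `GenData M Γ P → GenData (M * p) (Γ ⊓ Γ₀(p)) P'` for `P'.S = S ∪ V_p S`, provided
  `[p,0;0,1] g [p,0;0,1]⁻¹ ∈ Γ` for all `g ∈ Γ ⊓ Γ₀(p)`;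
* hence (`H332.GenData.finrank_eq` twice + tower law)
  `[ℚ̄(S, V_p S) : ℚ̄(S)] = [Γ : Γ ⊓ Γ₀(p)] ≤ [SL₂(ℤ) : Γ₀(p)]`.
-/

set_option autoImplicit false
set_option linter.style.haveILetI false
set_option linter.unusedSectionVars false

noncomputable section

open ModularCurve HahnSeries UpperHalfPlane
open scoped MatrixGroups Manifold

namespace Fermat.Agent.S48.H88

open Fermat.Agent.S24 Fermat.Agent.S24.H997 Fermat.Agent.S24.H624 Fermat.Agent.S20.L1
open Fermat.Agent.S48.H332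

/-! ### Analytic lemmas: `f ↦ f(p ·)` on `holN` -/

theorem mdiff_comp_mul {f : ℍ → ℂ} (hf : MDiff f) {p : ℕ} (hp : 0 < p) :
    MDiff (fun τ => f (infAff p 0 1 τ)) := by
  rw [UpperHalfPlane.mdifferentiable_iff]
  have hj : DifferentiableOn ℂ (f ∘ ofComplex) {z : ℂ | 0 < z.im} :=
    UpperHalfPlane.mdifferentiable_iff.mp hf
  have hmul : DifferentiableOn ℂ (fun z : ℂ => (p : ℂ) * z) {z : ℂ | 0 < z.im} :=
    (differentiable_id.const_mul (p : ℂ)).differentiableOn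
  have hmaps : Set.MapsTo (fun z : ℂ => (p : ℂ) * z) {z : ℂ | 0 < z.im} {z : ℂ | 0 < z.im} := by
    intro z hz
    simp only [Set.mem_ofPred_eq] at hz ⊢
    have : ((p : ℂ) * z).im = p * z.im := by simp
    rw [this]
    have hd' : (0 : ℝ) < p := by exact_mod_cast hp
    positivity
  refine (hj.comp hmul hmaps).congr ?_
  intro z hz
  simp only [Set.mem_ofPred_eq] at hz
  simp only [Function.comp_apply]
  congr 1
  apply UpperHalfPlane.ext
  rw [infAff_coe hp one_pos, ofComplex_apply_of_im_pos hz]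
  have hz' : 0 < ((p : ℂ) * z).im := hmaps hz
  rw [ofComplex_apply_of_im_pos hz']
  simp

/-- change of level: an expansion in `exp(2πiτ/M)` is an expansion in `exp(2πiτ/(Mp))` -/
theorem infExp_mul_level {M : ℕ} [NeZero M] {f : ℍ → ℂ} {φ : LaurentSeries ℂ}
    (hf : InfExp M f φ) (p : ℕ) [NeZero p] : InfExp (M * p) f (qExpand ℂ p φ) := by
  have hM : 0 < M := Nat.pos_of_ne_zero (NeZero.ne M)
  have hp : 0 < p := Nat.pos_of_ne_zero (NeZero.ne p)
  have h := hf.comp_infAff (M := M) (N := M * p) (a := 1) (d := 1) (e := p) 0 one_pos one_pos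
    hM (Nat.mul_pos hM hp) (by ring)
  rw [infRoot_zero, infTwist_one] at h
  refine h.congr fun τ => ?_
  rw [infAff_one_zero_one]

/-- the expansion of `f(p τ)` in `exp(2πiτ/(Mp))` -/
theorem infExp_comp_mul {M : ℕ} [NeZero M] {f : ℍ → ℂ} {φ : LaurentSeries ℂ}
    (hf : InfExp M f φ) (p : ℕ) [NeZero p] :
    InfExp (M * p) (fun τ => f (infAff p 0 1 τ)) (qExpand ℂ (p * p) φ) := by
  have hM : 0 < M := Nat.pos_of_ne_zero (NeZero.ne M)
  have hp : 0 < p := Nat.pos_of_ne_zero (NeZero.ne p)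
  have h := hf.comp_infAff (M := M) (N := M * p) (a := p) (d := 1) (e := p * p) 0 hp one_pos
    hM (Nat.mul_pos hM hp) (by ring)
  rw [infRoot_zero, infTwist_one] at h
  exact h

theorem holN_mul_level {M : ℕ} [NeZero M] {f : ℍ → ℂ} (hf : f ∈ holN M) (p : ℕ) [NeZero p] :
    f ∈ holN (M * p) := by
  refine ⟨hf.1, fun γ => ?_⟩
  obtain ⟨φ, hφ⟩ := hf.2 γ
  exact ⟨_, infExp_mul_level hφ p⟩

theorem holN_comp_mul {M : ℕ} [NeZero M] {f : ℍ → ℂ} (hf : f ∈ holN M) (p : ℕ) [NeZero p] :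
    (fun τ => f (infAff p 0 1 τ)) ∈ holN (M * p) := by
  have hM : 0 < M := Nat.pos_of_ne_zero (NeZero.ne M)
  have hp : 0 < p := Nat.pos_of_ne_zero (NeZero.ne p)
  refine ⟨mdiff_comp_mul hf.1 hp, fun γ => ?_⟩
  obtain ⟨γ', a, d', b, ha, hd', had, h00, h01, h10, h11⟩ := inf_exists_hnf p hp γ
  obtain ⟨φ, hφ⟩ := hf.2 γ'
  haveI : NeZero (a * a) := ⟨(Nat.mul_pos ha ha).ne'⟩
  have h := hφ.comp_infAff (M := M) (N := M * p) (a := a) (d := d') (e := a * a) b ha hd'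
    hM (Nat.mul_pos hM hp) (by rw [← had]; ring)
  refine ⟨_, h.congr fun τ => ?_⟩
  show compSL γ' f (infAff a b d' τ) = f (infAff p 0 1 (γ • τ))
  rw [inf_aff_smul_eq hp ha hd' γ γ' h00 h01 h10 h11 τ]
  rfl

/-! ### Formal lemmas on `Φ` -/

theorem qExpand_eq_of_eq {R : Type*} [CommRing R] {N N' : ℕ} [NeZero N] [NeZero N']
    (h : N = N') (x : LaurentSeries R) : qExpand R N x = qExpand R N' x := by
  subst h
  rfl

theorem coeffMap_qExpand_deg {R S : Type*} [CommRing R] [CommRing S] (φ : R →+* S) (p : ℕ)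
    [NeZero p] (a : LaurentSeries R) :
    coeffMap φ (qExpand R p a) = qExpand S p (coeffMap φ a) := by
  ext k
  by_cases hk : (p : ℤ) ∣ k
  · obtain ⟨m, rfl⟩ := hk
    rw [coeffMap_coeff, qExpand_coeff_mul, qExpand_coeff_mul, coeffMap_coeff]
  · rw [coeffMap_coeff, qExpand_coeff_of_not_dvd p _ hk, qExpand_coeff_of_not_dvd p _ hk,
      map_zero]

theorem Φ_mul_level (M p : ℕ) [NeZero M] [NeZero p] (s : LaurentSeries Kbar) :
    HolBase.Φ (M * p) s = qExpand ℂ p (HolBase.Φ M s) := by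
  show qExpand ℂ (M * p) (coeffMap ιK s) = qExpand ℂ p (qExpand ℂ M (coeffMap ιK s))
  rw [qExpand_qExpand]
  exact qExpand_eq_of_eq (Nat.mul_comm M p) _

theorem Φ_mul_level_qExpand (M p : ℕ) [NeZero M] [NeZero p] (s : LaurentSeries Kbar) :
    HolBase.Φ (M * p) (qExpand Kbar p s) = qExpand ℂ (p * p) (HolBase.Φ M s) := by
  show qExpand ℂ (M * p) (coeffMap ιK (qExpand Kbar p s))
    = qExpand ℂ (p * p) (qExpand ℂ M (coeffMap ιK s))
  rw [coeffMap_qExpand_deg, qExpand_qExpand, qExpand_qExpand]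
  exact qExpand_eq_of_eq (by ring) _

/-! ### The extension of the analytic input by `V_p` -/

section Ext

variable {M : ℕ} [NeZero M] {Γ : Subgroup SL(2, ℤ)} {P : GenField} (D : GenData M Γ P)
  (p : ℕ) [NeZero p]

open Classical in
/-- the avatars of the generators `S ∪ V_p S` -/
def extG (s : LaurentSeries Kbar) : ℍ → ℂ :=
  if s ∈ P.S then D.G s
  else if h : ∃ s₀, s₀ ∈ P.S ∧ qExpand Kbar p s₀ = s then
    fun τ => D.G h.choose (infAff p 0 1 τ)
  else 0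

theorem extG_of_mem {s : LaurentSeries Kbar} (hs : s ∈ P.S) : extG D p s = D.G s := by
  unfold extG
  rw [if_pos hs]

theorem extG_cases {s : LaurentSeries Kbar} (hs : s ∈ P.S ∪ ⇑(qExpand Kbar p) '' P.S) :
    (s ∈ P.S ∧ extG D p s = D.G s) ∨
      ∃ s₀, s₀ ∈ P.S ∧ qExpand Kbar p s₀ = s ∧
        extG D p s = fun τ => D.G s₀ (infAff p 0 1 τ) := by
  by_cases h : s ∈ P.S
  · exact Or.inl ⟨h, extG_of_mem D p h⟩
  · right
    have h' : ∃ s₀, s₀ ∈ P.S ∧ qExpand Kbar p s₀ = s := by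
      rcases hs with hs | ⟨s₀, hs₀, rfl⟩
      · exact absurd hs h
      · exact ⟨s₀, hs₀, rfl⟩
    refine ⟨h'.choose, h'.choose_spec.1, h'.choose_spec.2, ?_⟩
    unfold extG
    rw [if_neg h, dif_pos h']

theorem extG_exp {s : LaurentSeries Kbar} (hs : s ∈ P.S ∪ ⇑(qExpand Kbar p) '' P.S) :
    InfExp (M * p) (extG D p s) (HolBase.Φ (M * p) s) := by
  rcases extG_cases D p hs with ⟨h, e⟩ | ⟨s₀, hs₀, rfl, e⟩
  · rw [e, Φ_mul_level]
    exact infExp_mul_level (D.G_exp s h) p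
  · rw [e, Φ_mul_level_qExpand]
    exact infExp_comp_mul (D.G_exp s₀ hs₀) p

theorem extG_mem {s : LaurentSeries Kbar} (hs : s ∈ P.S ∪ ⇑(qExpand Kbar p) '' P.S) :
    extG D p s ∈ holN (M * p) := by
  rcases extG_cases D p hs with ⟨h, e⟩ | ⟨s₀, hs₀, rfl, e⟩
  · rw [e]
    exact holN_mul_level (D.G_mem s h) p
  · rw [e]
    exact holN_comp_mul (D.G_mem s₀ hs₀) p

/-- the avatar of `V_p s` is `τ ↦ G s (p τ)` -/
theorem extG_qExpand {s₀ : LaurentSeries Kbar} (hs₀ : s₀ ∈ P.S) :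
    extG D p (qExpand Kbar p s₀) = fun τ => D.G s₀ (infAff p 0 1 τ) := by
  have h1 := extG_exp D p (Or.inr ⟨s₀, hs₀, rfl⟩ : qExpand Kbar p s₀ ∈ _)
  have h2 : InfExp (M * p) (fun τ => D.G s₀ (infAff p 0 1 τ))
      (HolBase.Φ (M * p) (qExpand Kbar p s₀)) := by
    rw [Φ_mul_level_qExpand]
    exact infExp_comp_mul (D.G_exp s₀ hs₀) p
  exact InfExp.fun_unique h1 h2

/-- conjugation by `[p,0;0,1]` maps `Γ ⊓ Γ₀(p)` into `Γ` -/
def ConjStable (Γ : Subgroup SL(2, ℤ)) (p : ℕ) : Prop :=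
  ∀ g ∈ Γ, ∀ g' : SL(2, ℤ), g' 0 0 = g 0 0 → g' 0 1 = p * g 0 1 → p * g' 1 0 = g 1 0 →
    g' 1 1 = g 1 1 → g' ∈ Γ

/-- `G (p · g τ) = G (p τ)` for `g ∈ Γ ⊓ Γ₀(p)` -/
theorem comp_mul_inv (hΓ : ConjStable Γ p) {s₀ : LaurentSeries Kbar} (hs₀ : s₀ ∈ P.S)
    {g : SL(2, ℤ)} (hg : g ∈ Γ) (hgp : g ∈ CongruenceSubgroup.Gamma0 p) (τ : ℍ) :
    D.G s₀ (infAff p 0 1 (g • τ)) = D.G s₀ (infAff p 0 1 τ) := by
  have hp : 0 < p := Nat.pos_of_ne_zero (NeZero.ne p)
  have hpg : (p : ℤ) ∣ g 1 0 := by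
    rw [CongruenceSubgroup.Gamma0_mem] at hgp
    exact (ZMod.intCast_zmod_eq_zero_iff_dvd _ _).mp hgp
  obtain ⟨c, hc⟩ := hpg
  have hdet := inf_sl_det g
  let g' : SL(2, ℤ) := ⟨!![g 0 0, p * g 0 1; c, g 1 1], by
    rw [Matrix.det_fin_two_of]
    rw [hc] at hdet
    linear_combination hdet⟩
  have hg' : g' ∈ Γ := hΓ g hg g' rfl rfl hc.symm rfl
  have h := inf_aff_smul_eq (d := p) (a := p) (d' := 1) (b := 0) hp hp one_pos g g'
    (by simp [g']; ring) (by simp [g']) (by simp [g', hc]; ring) (by simp [g']) τ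
  rw [h, D.G_inv s₀ hs₀ g' hg']

end Ext

/-! ### The extended analytic input and the relative degree -/

section Deg

variable {M : ℕ} [NeZero M] {Γ : Subgroup SL(2, ℤ)} {P : GenField}

/-- **The extension of the analytic input by `V_p`**: level `M p`, group `Γ ⊓ Γ₀(p)`,
generators `S ∪ V_p S`. -/
def extV (D : GenData M Γ P) (p : ℕ) [NeZero p] (hΓ : ConjStable Γ p) (P' : GenField)
    (hS : P'.S = P.S ∪ ⇑(qExpand Kbar p) '' P.S) :
    GenData (M * p) (Γ ⊓ CongruenceSubgroup.Gamma0 p) P' where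
  G := extG D p
  G_mem s hs := extG_mem D p (hS ▸ hs)
  G_j := by rw [extG_of_mem D p P.hj, D.G_j]
  G_inv s hs g hg τ := by
    rcases extG_cases D p (hS ▸ hs : s ∈ P.S ∪ ⇑(qExpand Kbar p) '' P.S) with
      ⟨h, e⟩ | ⟨s₀, hs₀, rfl, e⟩
    · rw [e]
      exact D.G_inv s h g hg.1 τ
    · rw [e]
      exact comp_mul_inv D p hΓ hs₀ hg.1 hg.2 τ
  G_distinct g hg := by
    refine ⟨D.G_distinct g fun s hs τ => ?_, ?_⟩
    · have h := hg s (hS ▸ (Or.inl hs : s ∈ P.S ∪ ⇑(qExpand Kbar p) '' P.S)) τ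
      rwa [extG_of_mem D p hs] at h
    · have hj := hg (qExpand Kbar p jBar)
        (hS ▸ (Or.inr ⟨jBar, P.hj, rfl⟩ : qExpand Kbar p jBar ∈ P.S ∪ ⇑(qExpand Kbar p) '' P.S))
      rw [extG_qExpand D p P.hj, D.G_j] at hj
      exact Jd_distinct p g hj
  G_exp s hs := extG_exp D p (hS ▸ hs)

/-- `[ℚ̄(S) : ℚ̄(j)] = [SL₂(ℤ) : Γ]` as a relative degree of subfields of `ℚ̄((q))`. -/
theorem relfinrank_jBar (D : GenData M Γ P) [Finite (XG Γ)] :
    (IntermediateField.adjoin Kbar {jBar}).relfinrank P.F = Γ.index := by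
  have h1 := D.finrank_eq
  have h2 := IntermediateField.finrank_comap (A := IntermediateField.adjoin Kbar {jBar}) P.F.val
  rw [IntermediateField.fieldRange_val] at h2
  have h3 : (IntermediateField.adjoin Kbar {jBar}).comap P.F.val
      = IntermediateField.adjoin Kbar {P.jF} := by
    have : (IntermediateField.adjoin Kbar {P.jF}).map P.F.val
        = IntermediateField.adjoin Kbar {jBar} := by
      rw [IntermediateField.adjoin_map, Set.image_singleton]
      rfl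
    rw [← this, IntermediateField.comap_map]
  rw [h3] at h2
  rw [← h2, h1, Subgroup.index_eq_card]

theorem jBar_le (P : GenField) : IntermediateField.adjoin Kbar {jBar} ≤ P.F := by
  rw [IntermediateField.adjoin_le_iff]
  rintro x rfl
  exact P.subset_F P.hj

/-- **The relative degree** `[ℚ̄(S, V_p S) : ℚ̄(S)] ≤ [SL₂(ℤ) : Γ₀(p)]`, and it is positive. -/
theorem relfinrank_extV (D : GenData M Γ P) [Finite (XG Γ)] (p : ℕ) [NeZero p]
    (hΓ : ConjStable Γ p) (P' : GenField)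
    (hS : P'.S = P.S ∪ ⇑(qExpand Kbar p) '' P.S) :
    0 < P.F.relfinrank P'.F ∧
      P.F.relfinrank P'.F ≤ (CongruenceSubgroup.Gamma0 p).index := by
  have hΓ0 : Γ.index ≠ 0 := by
    haveI : Γ.FiniteIndex := Subgroup.finiteIndex_of_finite_quotient
    exact Subgroup.FiniteIndex.index_ne_zero
  have hp0 : (CongruenceSubgroup.Gamma0 p).index ≠ 0 := by
    rw [Fermat.Agent.S20.H872.index_Gamma0 p (NeZero.ne p)]
    have hpos : 0 < dedekindPsi p := by
      unfold dedekindPsi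
      refine Finset.sum_pos' (fun _ _ => Nat.zero_le _) ⟨1, ?_, ?_⟩
      · rw [Finset.mem_filter, Nat.mem_divisors]
        exact ⟨⟨one_dvd p, NeZero.ne p⟩, squarefree_one⟩
      · rw [Nat.div_one]
        exact Nat.pos_of_ne_zero (NeZero.ne p)
    exact hpos.ne'
  have hΓ' : (Γ ⊓ CongruenceSubgroup.Gamma0 p).index ≠ 0 := Subgroup.index_inf_ne_zero hΓ0 hp0
  haveI : (Γ ⊓ CongruenceSubgroup.Gamma0 p).FiniteIndex := ⟨hΓ'⟩
  haveI : Finite (XG (Γ ⊓ CongruenceSubgroup.Gamma0 p)) :=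
    Subgroup.finite_quotient_of_finiteIndex
  have hle : P.F ≤ P'.F := by
    rw [P.hF, P'.hF, hS]
    exact IntermediateField.adjoin.mono _ _ _ Set.subset_union_left
  have h1 := relfinrank_jBar D
  have h2 := relfinrank_jBar (extV D p hΓ P' hS)
  have h3 := IntermediateField.relfinrank_mul_relfinrank (jBar_le P) hle
  rw [h1, h2] at h3
  have h4 : (Γ ⊓ CongruenceSubgroup.Gamma0 p).index ≤ Γ.index * (CongruenceSubgroup.Gamma0 p).index :=
    Subgroup.index_inf_le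
  constructor
  · rcases Nat.eq_zero_or_pos (P.F.relfinrank P'.F) with h | h
    · rw [h, mul_zero] at h3
      exact absurd h3.symm hΓ'
    · exact h
  · rw [← h3] at h4
    exact Nat.le_of_mul_le_mul_left h4 (Nat.pos_of_ne_zero hΓ0)

end Deg

end Fermat.Agent.S48.H88
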