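import Fermat.Agent.S48.H88.DegF1
import Fermat.Agent.S48.H848.DiaFinal

/-!
# S48 / Tower A1, node NORMID1 (helper88): `H136.NormId1Statement`, unconditionally

`normId1 : H136.NormId1Statement`, i.e. for `p` prime, `p ∤ M`, `M ≠ 0` and all `y ∈ ℚ̄·F1(M)`:

  `Nm_α (β y) = V_p y · det (secMat p (δ_p y))`,   `δ_p = diamondAut ℚ̄ M p`.

Inputs: the analytic swap (`SwapF1.lean`), the degree bound (`DegF1.lean`, on helper332's `f1Data`),
the generic norm lemma (helper428, `H428/NormGenG.lean`) and FF-DIA (helper848, `H848/DiaFinal.lean`).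
Also `degAlpha1 : finrankAlong (alpha1) ≤ p + 1` in the shape of `H428.DegAlpha1Statement`.
-/

set_option autoImplicit false

noncomputable section

open ModularCurve AlgebraicCurve

namespace Fermat.Agent.S48.H88

open Fermat.Agent.S24 Fermat.Agent.S48.F1 Fermat.Agent.S48.H136

/-- **NORMID1.** -/
theorem normId1 : NormId1Statement :=
  normId1_of_dia fun M p hM _ _ =>
    haveI : NeZero M := ⟨hM⟩
    Fermat.Agent.S48.H848.exists_isDiamond M (unitOf M p)

/-- **DEG** in the shape of `H428.DegAlpha1Statement`. -/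
theorem degAlpha1 (M p : ℕ) [NeZero p] (hM : M ≠ 0) (hp : p.Prime) (hpM : ¬ p ∣ M) :
    finrankAlong Kbar (alpha1 Kbar M p) ≤ p + 1 :=
  (finrankAlong_alpha1_le M p hM hp hpM).2

end Fermat.Agent.S48.H88
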