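import Fermat.Agent.S48.H88.SwapGen
import Fermat.Agent.S48.H76.Avatar
import Fermat.Agent.S48.F1.Basic

/-!
# S48 / Tower A1, piece A1-NORM (helper88), part 2: the swap `w_p` on `ℚ̄ · F1(M; p)`

`p` prime, `p ∤ M`.  With `σ = [1, u; M, p w] ∈ Γ₁(M)`, `σ' = [p, u; M, w] ∈ Γ₀(M)`
(`p w - M u = 1`) and `W τ = σ • (p τ)`:

* `f ∘ W = f(p ·)` for every `Γ₁(M)`-invariant `f`;
* `f(p ·) ∘ W = f ∘ σ'`.

Hence the analytic swap `w : ℚ̄ · F1(M; p) →+* ℚ̄((q))` with

  `w (α y) = V_p y`,  `w (β y) = δ_p y`   (`δ_p` = the diamond automorphism `P_a ↦ P_{p a}`).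

Main result: `exists_swap_F1`.
-/

set_option autoImplicit false
set_option linter.style.haveILetI false

noncomputable section

open HahnSeries ModularCurve UpperHalfPlane CongruenceSubgroup IntermediateField
open scoped MatrixGroups

namespace Fermat.Agent.S48.H88

open Fermat.Agent.S24 Fermat.Agent.S24.H997 Fermat.Agent.S48.F1 Fermat.Agent.S48.H76
open Fermat.Agent.S24.H624 Fermat.Agent.S20.L1

/-! ### Avatars of the generators -/

theorem coeffMap_ιK_coeffEmb (x : LaurentSeries ℚ) :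
    coeffMap ιK (coeffEmb Kbar x) = coeffEmb ℂ x := by
  ext k
  rw [coeffMap_coeff, coeffEmb_coeff, coeffEmb_coeff, ιK_algebraMap]
  rfl

theorem isAv_jq : IsAv ιK (coeffEmb Kbar jq) jFun := by
  unfold IsAv
  rw [coeffMap_ιK_coeffEmb]
  exact infExp_jFun

theorem isAv_jd (d : ℕ) [NeZero d] : IsAv ιK (coeffEmb Kbar (qExpand ℚ d jq)) (Jd d) := by
  have h := isAv_jq.qExpand d
  rw [qExpand_coeffEmb] at h
  exact h

theorem isAv_pFun (M : ℕ) [NeZero M] {a : ZMod M} (ha : a ≠ 0) :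
    IsAv ιK (coeffEmb Kbar (divGen M a)) (pFun M a) := by
  unfold IsAv
  rw [coeffMap_ιK_coeffEmb]
  have h : coeffEmb ℂ (divGen M a) = divGenC ℂ M a := coeffMap_divGenC (algebraMap ℚ ℂ) M a
  rw [h]
  exact infExp_pFun M ha

/-! ### The matrices -/

theorem exists_swap_matrices (M p : ℕ) (hpM : Nat.Coprime p M) :
    ∃ σ σ' : SL(2, ℤ), σ ∈ Gamma1 M ∧ σ' ∈ Gamma0 M ∧
      ((σ' 0 0 : ℤ) : ZMod M) = (p : ZMod M) ∧
      (p : ℤ) * σ 0 0 = σ' 0 0 ∧ σ 0 1 = σ' 0 1 ∧ σ 1 0 = σ' 1 0 ∧ σ 1 1 = σ' 1 1 * p := by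
  obtain ⟨w, v, h⟩ := Nat.isCoprime_iff_coprime.mpr hpM
  have hM : ((w : ℤ) : ZMod M) * (p : ZMod M) = 1 := by
    have h' := congrArg (fun z : ℤ => (z : ZMod M)) h
    simp only [Int.cast_add, Int.cast_mul, Int.cast_natCast, Int.cast_one,
      ZMod.natCast_self, mul_zero, add_zero] at h'
    exact h'
  let σ : SL(2, ℤ) := ⟨!![1, -v; (M : ℤ), (p : ℤ) * w], by
    rw [Matrix.det_fin_two_of]; linear_combination h⟩
  let σ' : SL(2, ℤ) := ⟨!![(p : ℤ), -v; (M : ℤ), w], by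
    rw [Matrix.det_fin_two_of]; linear_combination h⟩
  have e00 : σ 0 0 = 1 := rfl
  have e01 : σ 0 1 = -v := rfl
  have e10 : σ 1 0 = (M : ℤ) := rfl
  have e11 : σ 1 1 = (p : ℤ) * w := rfl
  have e00' : σ' 0 0 = (p : ℤ) := rfl
  have e01' : σ' 0 1 = -v := rfl
  have e10' : σ' 1 0 = (M : ℤ) := rfl
  have e11' : σ' 1 1 = w := rfl
  refine ⟨σ, σ', ?_, ?_, ?_, ?_, ?_, ?_, ?_⟩
  · rw [Gamma1_mem, e00, e10, e11]
    refine ⟨by simp, ?_, by simp⟩
    push_cast
    rw [mul_comm]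
    exact hM
  · rw [Gamma0_mem, e10']
    simp
  · rw [e00']
    simp
  · rw [e00, e00', mul_one]
  · rw [e01, e01']
  · rw [e10, e10']
  · rw [e11, e11']
    ring

/-! ### The generators of `ℚ̄ · F1(M; p)` -/

/-- the generators of `F1 M` -/
def gensF1 (M : ℕ) : Set (LaurentSeries ℚ) := divisorExpansions M ∪ divGens M

theorem F1_eq_adjoin (M : ℕ) : F1 M = IntermediateField.adjoin ℚ (gensF1 M) := rfl

theorem F1p_eq_adjoin (M p : ℕ) [NeZero p] :
    F1p M p = IntermediateField.adjoin ℚ (gensF1 M ∪ ⇑(qExpandₐ p) '' gensF1 M) := by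
  rw [F1p, F1_eq_adjoin, IntermediateField.adjoin_map, IntermediateField.adjoin_union]

/-- the generators of `ℚ̄ · F1(M; p)` -/
def gensF1p (M p : ℕ) [NeZero p] : Set (LaurentSeries Kbar) :=
  (⇑(coeffEmb Kbar) '' gensF1 M) ∪ (⇑(qExpand Kbar p) '' (⇑(coeffEmb Kbar) '' gensF1 M))

theorem coeffEmb_mem_adjoin_gensF1p (M p : ℕ) [NeZero p] {y : LaurentSeries ℚ}
    (hy : y ∈ F1p M p) :
    coeffEmb Kbar y ∈ IntermediateField.adjoin Kbar (gensF1p M p) := by
  rw [F1p_eq_adjoin] at hy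
  induction hy using IntermediateField.adjoin_induction with
  | mem x hx =>
      apply IntermediateField.subset_adjoin
      rcases hx with hx | ⟨z, hz, rfl⟩
      · exact Or.inl ⟨x, hx, rfl⟩
      · refine Or.inr ⟨coeffEmb Kbar z, ⟨z, hz, rfl⟩, ?_⟩
        exact qExpand_coeffEmb Kbar p z
  | algebraMap c =>
      rw [coeffEmb_algebraMap]
      exact IntermediateField.algebraMap_mem _ _
  | add x y _ _ hx hy => rw [map_add]; exact add_mem hx hy
  | inv x _ hx => rw [map_inv₀]; exact inv_mem hx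
  | mul x y _ _ hx hy => rw [map_mul]; exact mul_mem hx hy

theorem F1pL_le_adjoin (M p : ℕ) [NeZero p] :
    F1pL Kbar M p ≤ IntermediateField.adjoin Kbar (gensF1p M p) := by
  show laurentBaseChange Kbar (F1p M p) ≤ _
  rw [laurentBaseChange, IntermediateField.adjoin_le_iff]
  rintro _ ⟨y, hy, rfl⟩
  exact coeffEmb_mem_adjoin_gensF1p M p hy

/-! ### The swap relations on the generators -/

section Rel

variable (M p : ℕ) [NeZero M] [NeZero p] {σ σ' : SL(2, ℤ)}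

/-- generators of `α F`: `g ↦ V_p g` -/
theorem swapRel_alpha (hσ : σ ∈ Gamma1 M) {z : LaurentSeries ℚ} (hz : z ∈ gensF1 M) :
    SwapRel ιK (swapW p σ) (coeffEmb Kbar z) (qExpand Kbar p (coeffEmb Kbar z)) := by
  rcases hz with ⟨d, hd0, hd, rfl⟩ | ⟨a, ha, rfl⟩
  · haveI := hd0
    exact SwapRel.of_invariant (isAv_jd d)
      (fun τ => Jd_inv M d hd σ (Gamma1_in_Gamma0 M hσ) τ)
  · exact SwapRel.of_invariant (isAv_pFun M ha) (fun τ => pFun_smul_Gamma1 M a σ hσ τ)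

/-- generators `V_p j_d` of `β F`: `V_p j_d ↦ j_d` -/
theorem swapRel_beta_jd (hσ' : σ' ∈ Gamma0 M)
    (h00 : (p : ℤ) * σ 0 0 = σ' 0 0) (h01 : σ 0 1 = σ' 0 1) (h10 : σ 1 0 = σ' 1 0)
    (h11 : σ 1 1 = σ' 1 1 * p) {d : ℕ} [NeZero d] (hd : d ∣ M) :
    SwapRel ιK (swapW p σ) (qExpand Kbar p (coeffEmb Kbar (qExpand ℚ d jq)))
      (coeffEmb Kbar (qExpand ℚ d jq)) :=
  SwapRel.of_comp h00 h01 h10 h11 (isAv_jd d)
    ((isAv_jd d).congr fun τ => (Jd_inv M d hd σ' hσ' τ).symm)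

/-- generators `V_p P_a` of `β F`: `V_p P_a ↦ P_{p a}` -/
theorem swapRel_beta_div (hσ' : σ' ∈ Gamma0 M)
    (hp00 : ((σ' 0 0 : ℤ) : ZMod M) = (p : ZMod M))
    (h00 : (p : ℤ) * σ 0 0 = σ' 0 0) (h01 : σ 0 1 = σ' 0 1) (h10 : σ 1 0 = σ' 1 0)
    (h11 : σ 1 1 = σ' 1 1 * p) {a : ZMod M} (ha : a ≠ 0) (ha' : (p : ZMod M) * a ≠ 0) :
    SwapRel ιK (swapW p σ) (qExpand Kbar p (coeffEmb Kbar (divGen M a)))
      (coeffEmb Kbar (divGen M ((p : ZMod M) * a))) := by
  refine SwapRel.of_comp h00 h01 h10 h11 (isAv_pFun M ha) ((isAv_pFun M ha').congr fun τ => ?_)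
  have h := congrFun (compSL_pFun M a σ' hσ') τ
  rw [compSL_apply, hp00, mul_comm] at h
  exact h.symm

end Rel

/-! ### The swap -/

/-- **The swap `w_p`.**  For `p` prime to `M` and `δ` the diamond automorphism `P_a ↦ P_{p a}` of
`ℚ̄ · F1 M` there is a `ℚ̄`-algebra homomorphism `w : ℚ̄ · F1(M; p) → ℚ̄((q))` with
`w ∘ α = V_p` and `w ∘ β = δ`. -/
theorem exists_swap_F1 (M p : ℕ) [NeZero M] [NeZero p] (hpM : Nat.Coprime p M)
    (δ : F1L Kbar M ≃ₐ[Kbar] F1L Kbar M) (hδ : IsDiamond Kbar M (unitOf M p) δ) :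
    ∃ w : F1pL Kbar M p →ₐ[Kbar] LaurentSeries Kbar,
      (∀ y : F1L Kbar M, w (alpha1 Kbar M p y) = qExpand Kbar p (y : LaurentSeries Kbar)) ∧
      (∀ y : F1L Kbar M, w (beta1 Kbar M p y) = ((δ y : F1L Kbar M) : LaurentSeries Kbar)) := by
  obtain ⟨σ, σ', hσ, hσ', hp00, h00, h01, h10, h11⟩ := exists_swap_matrices M p hpM
  have hp : 0 < p := Nat.pos_of_ne_zero (NeZero.ne p)
  have hunit : ((unitOf M p : (ZMod M)ˣ) : ZMod M) = (p : ZMod M) := coe_unitOf M hpM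
  have hne : ∀ {a : ZMod M}, a ≠ 0 → (p : ZMod M) * a ≠ 0 := by
    intro a ha
    rw [← hunit]
    exact unit_mul_ne_zero _ ha
  have hS : ∀ a ∈ gensF1p M p, ∃ a', SwapRel ιK (swapW p σ) a a' := by
    rintro a (⟨z, hz, rfl⟩ | ⟨_, ⟨z, hz, rfl⟩, rfl⟩)
    · exact ⟨_, swapRel_alpha M p hσ hz⟩
    · rcases hz with ⟨d, hd0, hd, rfl⟩ | ⟨a, ha, rfl⟩
      · haveI := hd0
        exact ⟨_, swapRel_beta_jd M p hσ' h00 h01 h10 h11 hd⟩
      · exact ⟨_, swapRel_beta_div M p hσ' hp00 h00 h01 h10 h11 ha (hne ha)⟩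
  obtain ⟨w₀, hw₀⟩ := exists_swap (swapW_surjective p hp σ) (gensF1p M p) hS
  let w : F1pL Kbar M p →ₐ[Kbar] LaurentSeries Kbar :=
    w₀.comp (IntermediateField.inclusion (F1pL_le_adjoin M p))
  have hw : ∀ (x : F1pL Kbar M p) (hx : (x : LaurentSeries Kbar) ∈ gensF1p M p)
      (a' : LaurentSeries Kbar), SwapRel ιK (swapW p σ) (x : LaurentSeries Kbar) a' →
      w x = a' := fun x hx a' h => hw₀ (x : LaurentSeries Kbar) hx a' h
  refine ⟨w, ?_, ?_⟩
  · have key : (w : F1pL Kbar M p →+* LaurentSeries Kbar).comp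
        (alpha1 Kbar M p : F1L Kbar M →+* F1pL Kbar M p)
          = (qExpand Kbar p).comp (algebraMap (F1L Kbar M) (LaurentSeries Kbar)) := by
      refine lbc_ringHom_ext (S := gensF1 M) _ _ ?_ ?_
      · intro a
        show w (alpha1 Kbar M p (algebraMap Kbar _ a))
          = qExpand Kbar p (algebraMap Kbar (LaurentSeries Kbar) a)
        rw [AlgHom.commutes, AlgHom.commutes, ← qExpandAlgHomC_apply, AlgHom.commutes]
      · intro z hz
        show w (alpha1 Kbar M p _) = qExpand Kbar p (coeffEmb Kbar z)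
        exact hw _ (Or.inl ⟨z, hz, rfl⟩) _ (swapRel_alpha M p hσ hz)
    intro y
    exact congrArg (fun f : F1L Kbar M →+* LaurentSeries Kbar => f y) key
  · have key : (w : F1pL Kbar M p →+* LaurentSeries Kbar).comp
        (beta1 Kbar M p : F1L Kbar M →+* F1pL Kbar M p)
          = (algebraMap (F1L Kbar M) (LaurentSeries Kbar)).comp
              (δ : F1L Kbar M →+* F1L Kbar M) := by
      refine lbc_ringHom_ext (S := gensF1 M) _ _ ?_ ?_
      · intro a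
        show w (beta1 Kbar M p (algebraMap Kbar _ a))
          = ((δ (algebraMap Kbar _ a) : F1L Kbar M) : LaurentSeries Kbar)
        rw [AlgHom.commutes, AlgHom.commutes, AlgEquiv.commutes]
        rfl
      · rintro z (hz | ⟨a, ha, rfl⟩)
        · have hmem : coeffEmb Kbar z ∈ laurentBaseChange Kbar (modularFunctionFieldFull M) :=
            coeffEmb_mem_laurentBaseChange Kbar (IntermediateField.subset_adjoin ℚ _ hz)
          have hzF : z ∈ F1 M := IntermediateField.subset_adjoin ℚ (gensF1 M) (Or.inl hz)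
          have hx1 : δ ⟨coeffEmb Kbar z, coeffEmb_mem_laurentBaseChange Kbar hzF⟩
              = ⟨coeffEmb Kbar z, coeffEmb_mem_laurentBaseChange Kbar hzF⟩ := hδ.1 _ hmem
          show w (beta1 Kbar M p ⟨coeffEmb Kbar z, coeffEmb_mem_laurentBaseChange Kbar hzF⟩)
            = ((δ ⟨coeffEmb Kbar z, coeffEmb_mem_laurentBaseChange Kbar hzF⟩ : F1L Kbar M) :
                LaurentSeries Kbar)
          rw [hx1]
          obtain ⟨d, hd0, hd, rfl⟩ := hz
          haveI := hd0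
          exact hw _ (Or.inr ⟨_, ⟨_, Or.inl ⟨d, hd0, hd, rfl⟩, rfl⟩, rfl⟩) _
            (swapRel_beta_jd M p hσ' h00 h01 h10 h11 hd)
        · show w (beta1 Kbar M p (divGenL Kbar M a ha))
            = ((δ (divGenL Kbar M a ha) : F1L Kbar M) : LaurentSeries Kbar)
          rw [hδ.apply_divGenL, coe_divGenL]
          have e : coeffEmb Kbar (divGen M (((unitOf M p : (ZMod M)ˣ) : ZMod M) * a))
              = coeffEmb Kbar (divGen M ((p : ZMod M) * a)) := by rw [hunit]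
          rw [e]
          exact hw _ (Or.inr ⟨_, ⟨_, Or.inr ⟨a, ha, rfl⟩, rfl⟩, rfl⟩) _
            (swapRel_beta_div M p hσ' hp00 h00 h01 h10 h11 ha (hne ha))
    intro y
    exact congrArg (fun f : F1L Kbar M →+* LaurentSeries Kbar => f y) key

end Fermat.Agent.S48.H88
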