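import Fermat.Agent.S24.Inf.HNF
import Mathlib.FieldTheory.IntermediateField.Adjoin.Algebra
import Mathlib.RingTheory.Localization.FractionRing

/-!
# S48 / Tower A1, piece A1-NORM (helper88), part 1: field homomorphisms from self-maps of `ℍ`

Generator-free construction of "swaps" (Atkin–Lehner type maps, diamonds) on subfields of
`E((q))` from their analytic avatars.

* `IsAv ι a f` : the series `a ∈ E((q))` converges on all of `ℍ` to `f` (in `q = exp(2πiτ)`).
* `SwapRel ι W a a'` : `a` has an avatar `f` and `a'` is the expansion of `f ∘ W`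
  (`W : ℍ → ℍ` any self-map, e.g. `τ ↦ σ • (pτ)`).
* `swapDom ι W` : the `E`-subalgebra of `E((q))` of series on which the swap is defined;
  `swapHom ι W : swapDom ι W →ₐ[E] E((q))`, injective as soon as `W` is surjective.
* `exists_swap` : if every element of `S` lies in `swapDom`, the swap extends to the FIELD
  `E(S) = IntermediateField.adjoin E S`, with the prescribed values on `S`.
-/

set_option autoImplicit false

noncomputable section

open HahnSeries ModularCurve UpperHalfPlane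

namespace Fermat.Agent.S48.H88

open Fermat.Agent.S24

variable {E : Type*} [Field E] (ι : E →+* ℂ)

/-- `f : ℍ → ℂ` is the avatar of the series `a ∈ E((q))`. -/
def IsAv (a : LaurentSeries E) (f : ℍ → ℂ) : Prop := InfExp 1 f (coeffMap ι a)

variable {ι}

theorem coeffMap_algebraMap_h88 (c : E) :
    coeffMap ι (algebraMap E (LaurentSeries E) c) = HahnSeries.C (ι c) := by
  have h1 : algebraMap E (PowerSeries E) c = PowerSeries.C c := by simp
  rw [HahnSeries.algebraMap_apply', h1, HahnSeries.ofPowerSeries_C]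
  show coeffMap ι (HahnSeries.single 0 c) = HahnSeries.single 0 (ι c)
  exact coeffMap_single ι 0 c

theorem IsAv.const (c : E) : IsAv ι (algebraMap E (LaurentSeries E) c) (fun _ => ι c) := by
  unfold IsAv
  rw [coeffMap_algebraMap_h88]
  exact InfExp.const (ι c)

theorem IsAv.zero : IsAv ι (0 : LaurentSeries E) (fun _ => 0) := by
  unfold IsAv
  rw [map_zero]
  exact InfExp.zero

theorem IsAv.one : IsAv ι (1 : LaurentSeries E) (fun _ => 1) := by
  unfold IsAv
  rw [map_one]
  exact InfExp.one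

theorem IsAv.add {a b : LaurentSeries E} {f g : ℍ → ℂ} (hf : IsAv ι a f) (hg : IsAv ι b g) :
    IsAv ι (a + b) (fun τ => f τ + g τ) := by
  unfold IsAv at *
  rw [map_add]
  exact hf.add hg

theorem IsAv.mul {a b : LaurentSeries E} {f g : ℍ → ℂ} (hf : IsAv ι a f) (hg : IsAv ι b g) :
    IsAv ι (a * b) (fun τ => f τ * g τ) := by
  unfold IsAv at *
  rw [map_mul]
  exact hf.mul hg

theorem IsAv.series_unique {a b : LaurentSeries E} {f : ℍ → ℂ} (ha : IsAv ι a f)
    (hb : IsAv ι b f) : a = b :=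
  inf_coeffMap_injective ι.injective (InfExp.unique ha hb)

theorem IsAv.fun_unique {a : LaurentSeries E} {f g : ℍ → ℂ} (hf : IsAv ι a f)
    (hg : IsAv ι a g) : f = g :=
  InfExp.fun_unique hf hg

theorem IsAv.congr {a : LaurentSeries E} {f g : ℍ → ℂ} (hf : IsAv ι a f)
    (h : ∀ τ, f τ = g τ) : IsAv ι a g :=
  InfExp.congr hf h

variable (ι) (W : ℍ → ℍ)

/-- `a'` is the expansion of `f ∘ W`, `f` the avatar of `a`. -/
def SwapRel (a a' : LaurentSeries E) : Prop :=
  ∃ f : ℍ → ℂ, IsAv ι a f ∧ IsAv ι a' (fun τ => f (W τ))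

variable {ι W}

theorem SwapRel.unique {a a' a'' : LaurentSeries E} (h : SwapRel ι W a a')
    (h' : SwapRel ι W a a'') : a' = a'' := by
  obtain ⟨f, hf, hf'⟩ := h
  obtain ⟨g, hg, hg'⟩ := h'
  have hfg : f = g := hf.fun_unique hg
  subst hfg
  exact hf'.series_unique hg'

theorem SwapRel.const (c : E) :
    SwapRel ι W (algebraMap E (LaurentSeries E) c) (algebraMap E (LaurentSeries E) c) :=
  ⟨fun _ => ι c, IsAv.const c, IsAv.const c⟩

theorem SwapRel.add {a a' b b' : LaurentSeries E} (ha : SwapRel ι W a a')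
    (hb : SwapRel ι W b b') : SwapRel ι W (a + b) (a' + b') := by
  obtain ⟨f, hf, hf'⟩ := ha
  obtain ⟨g, hg, hg'⟩ := hb
  exact ⟨fun τ => f τ + g τ, hf.add hg, hf'.add hg'⟩

theorem SwapRel.mul {a a' b b' : LaurentSeries E} (ha : SwapRel ι W a a')
    (hb : SwapRel ι W b b') : SwapRel ι W (a * b) (a' * b') := by
  obtain ⟨f, hf, hf'⟩ := ha
  obtain ⟨g, hg, hg'⟩ := hb
  exact ⟨fun τ => f τ * g τ, hf.mul hg, hf'.mul hg'⟩

theorem SwapRel.eq_zero_of_surjective (hW : Function.Surjective W) {a : LaurentSeries E}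
    (h : SwapRel ι W a 0) : a = 0 := by
  obtain ⟨f, hf, hf'⟩ := h
  have h0 : (fun τ => f (W τ)) = fun _ => (0 : ℂ) := hf'.fun_unique IsAv.zero
  have hf0 : f = fun _ => (0 : ℂ) := by
    funext τ
    obtain ⟨τ', rfl⟩ := hW τ
    exact congrFun h0 τ'
  rw [hf0] at hf
  exact hf.series_unique IsAv.zero

variable (ι W)

/-- The `E`-subalgebra of `E((q))` on which the swap along `W` is defined. -/
def swapDom : Subalgebra E (LaurentSeries E) where
  carrier := {a | ∃ a', SwapRel ι W a a'}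
  mul_mem' := by
    rintro a b ⟨a', ha⟩ ⟨b', hb⟩
    exact ⟨a' * b', ha.mul hb⟩
  add_mem' := by
    rintro a b ⟨a', ha⟩ ⟨b', hb⟩
    exact ⟨a' + b', ha.add hb⟩
  algebraMap_mem' c := ⟨_, SwapRel.const c⟩

variable {ι W}

theorem mem_swapDom {a : LaurentSeries E} : a ∈ swapDom ι W ↔ ∃ a', SwapRel ι W a a' := Iff.rfl

variable (ι W)

/-- The swap along `W`, as a function. -/
def swapFun (a : swapDom ι W) : LaurentSeries E := Classical.choose a.2

variable {ι W}

theorem swapFun_spec (a : swapDom ι W) : SwapRel ι W (a : LaurentSeries E) (swapFun ι W a) :=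
  Classical.choose_spec a.2

theorem swapFun_eq {a : swapDom ι W} {a' : LaurentSeries E}
    (h : SwapRel ι W (a : LaurentSeries E) a') : swapFun ι W a = a' :=
  (swapFun_spec a).unique h

variable (ι W)

/-- The swap along `W`, as an `E`-algebra homomorphism. -/
def swapHom : swapDom ι W →ₐ[E] LaurentSeries E where
  toFun := swapFun ι W
  map_one' := swapFun_eq (by
    have h := SwapRel.const (ι := ι) (W := W) (1 : E)
    rwa [map_one] at h)
  map_mul' a b := swapFun_eq ((swapFun_spec a).mul (swapFun_spec b))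
  map_zero' := swapFun_eq (by
    have h := SwapRel.const (ι := ι) (W := W) (0 : E)
    rwa [map_zero] at h)
  map_add' a b := swapFun_eq ((swapFun_spec a).add (swapFun_spec b))
  commutes' c := swapFun_eq (SwapRel.const c)

variable {ι W}

theorem swapHom_apply (a : swapDom ι W) : swapHom ι W a = swapFun ι W a := rfl

theorem swapHom_eq {a : swapDom ι W} {a' : LaurentSeries E}
    (h : SwapRel ι W (a : LaurentSeries E) a') : swapHom ι W a = a' := swapFun_eq h

theorem swapHom_injective (hW : Function.Surjective W) :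
    Function.Injective (swapHom ι W) := by
  rw [injective_iff_map_eq_zero]
  intro a ha
  have h := swapFun_spec a
  rw [← swapHom_apply, ha] at h
  exact Subtype.ext (h.eq_zero_of_surjective hW)

open scoped IntermediateField.algebraAdjoinAdjoin in
/-- **Swaps extend to fields.**  If every element `a` of `S` has an avatar `f` such that
`f ∘ W` has an expansion over `E`, then there is an `E`-algebra homomorphism
`w : E(S) → E((q))` with `w a = (expansion of f ∘ W)` for all `a ∈ S`. -/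
theorem exists_swap (hW : Function.Surjective W) (S : Set (LaurentSeries E))
    (hS : ∀ a ∈ S, ∃ a', SwapRel ι W a a') :
    ∃ w : IntermediateField.adjoin E S →ₐ[E] LaurentSeries E,
      ∀ (a : LaurentSeries E) (ha : a ∈ S) (a' : LaurentSeries E), SwapRel ι W a a' →
        w ⟨a, IntermediateField.subset_adjoin E S ha⟩ = a' := by
  have hle : Algebra.adjoin E S ≤ swapDom ι W := Algebra.adjoin_le hS
  let g : Algebra.adjoin E S →ₐ[E] LaurentSeries E :=
    (swapHom ι W).comp (Subalgebra.inclusion hle)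
  have hg : Function.Injective g :=
    (swapHom_injective hW).comp (Subalgebra.inclusion_injective hle)
  refine ⟨IsFractionRing.liftAlgHom (K := IntermediateField.adjoin E S) hg, ?_⟩
  intro a ha a' haa'
  have e : (⟨a, IntermediateField.subset_adjoin E S ha⟩ : IntermediateField.adjoin E S) =
      algebraMap (Algebra.adjoin E S) (IntermediateField.adjoin E S)
        ⟨a, Algebra.subset_adjoin ha⟩ := rfl
  rw [e, IsFractionRing.liftAlgHom_apply, IsFractionRing.lift_algebraMap]
  show swapHom ι W ⟨a, hle (Algebra.subset_adjoin ha)⟩ = a'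
  exact swapHom_eq haa'

/-! ### The swap along `τ ↦ σ • (p τ)` -/

section PSwap

open scoped MatrixGroups

theorem coeffMap_qExpand_h88 {R S : Type*} [CommRing R] [CommRing S] (φ : R →+* S) (p : ℕ)
    [NeZero p] (a : LaurentSeries R) :
    coeffMap φ (qExpand R p a) = qExpand S p (coeffMap φ a) := by
  ext k
  by_cases hk : (p : ℤ) ∣ k
  · obtain ⟨m, rfl⟩ := hk
    rw [coeffMap_coeff, qExpand_coeff_mul, qExpand_coeff_mul, coeffMap_coeff]
  · rw [coeffMap_coeff, qExpand_coeff_of_not_dvd p _ hk, qExpand_coeff_of_not_dvd p _ hk,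
      map_zero]

/-- `V_p a` has the avatar `τ ↦ f (p τ)`. -/
theorem IsAv.qExpand {a : LaurentSeries E} {f : ℍ → ℂ} (hf : IsAv ι a f) (p : ℕ) [NeZero p] :
    IsAv ι (qExpand E p a) (fun τ => f (infAff p 0 1 τ)) := by
  unfold IsAv at *
  rw [coeffMap_qExpand_h88]
  have hp : 0 < p := Nat.pos_of_ne_zero (NeZero.ne p)
  have h := hf.comp_infAff (M := 1) (N := 1) (a := p) (d := 1) (e := p) 0 hp one_pos one_pos
    one_pos (by ring)
  rw [infRoot_zero, infTwist_one] at h
  exact h

/-- The self-map `τ ↦ σ • (p τ)` of `ℍ`. -/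
def swapW (p : ℕ) (σ : SL(2, ℤ)) (τ : ℍ) : ℍ := σ • infAff p 0 1 τ

theorem infAff_mul_div (p : ℕ) (hp : 0 < p) (τ : ℍ) : infAff p 0 1 (infAff 1 0 p τ) = τ := by
  apply UpperHalfPlane.ext
  rw [infAff_coe hp one_pos, infAff_coe one_pos hp]
  have hp0 : (p : ℂ) ≠ 0 := by exact_mod_cast hp.ne'
  field_simp
  simp

theorem infAff_div_mul (p : ℕ) (hp : 0 < p) (τ : ℍ) : infAff 1 0 p (infAff p 0 1 τ) = τ := by
  apply UpperHalfPlane.ext
  rw [infAff_coe one_pos hp, infAff_coe hp one_pos]
  have hp0 : (p : ℂ) ≠ 0 := by exact_mod_cast hp.ne'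
  field_simp
  simp

theorem swapW_surjective (p : ℕ) (hp : 0 < p) (σ : SL(2, ℤ)) :
    Function.Surjective (swapW p σ) := by
  intro τ
  refine ⟨infAff 1 0 p (σ⁻¹ • τ), ?_⟩
  rw [swapW, infAff_mul_div p hp, smul_inv_smul]

/-- `p · (σ • (p τ)) = σ' • τ` when `[p,0;0,1] σ [p,0;0,1] = p σ'`. -/
theorem infAff_swapW {p : ℕ} (hp : 0 < p) (σ σ' : SL(2, ℤ))
    (h00 : (p : ℤ) * σ 0 0 = σ' 0 0) (h01 : σ 0 1 = σ' 0 1) (h10 : σ 1 0 = σ' 1 0)
    (h11 : σ 1 1 = σ' 1 1 * p) (τ : ℍ) :
    infAff p 0 1 (swapW p σ τ) = σ' • τ := by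
  have h := inf_aff_smul_eq (d := p) (a := 1) (d' := p) (b := 0) hp one_pos hp σ σ'
    (by rw [h00]; simp) (by rw [h01]; ring) (by rw [h10]; simp) (by rw [h11]; ring)
    (infAff p 0 1 τ)
  rw [infAff_div_mul p hp] at h
  exact h

/-- A `σ`-invariant avatar: the swap maps `a` to `V_p a`. -/
theorem SwapRel.of_invariant {p : ℕ} [NeZero p] {σ : SL(2, ℤ)} {a : LaurentSeries E}
    {f : ℍ → ℂ} (hf : IsAv ι a f) (hinv : ∀ τ : ℍ, f (σ • τ) = f τ) :
    SwapRel ι (swapW p σ) a (qExpand E p a) :=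
  ⟨f, hf, (hf.qExpand p).congr fun _ => (hinv _).symm⟩

/-- The swap maps `V_p a` to the expansion of `f ∘ σ'`. -/
theorem SwapRel.of_comp {p : ℕ} [NeZero p] {σ σ' : SL(2, ℤ)}
    (h00 : (p : ℤ) * σ 0 0 = σ' 0 0) (h01 : σ 0 1 = σ' 0 1) (h10 : σ 1 0 = σ' 1 0)
    (h11 : σ 1 1 = σ' 1 1 * p) {a a' : LaurentSeries E} {f : ℍ → ℂ} (hf : IsAv ι a f)
    (hf' : IsAv ι a' (fun τ => f (σ' • τ))) :
    SwapRel ι (swapW p σ) (qExpand E p a) a' :=
  ⟨fun τ => f (infAff p 0 1 τ), hf.qExpand p, hf'.congr fun τ => by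
    show f (σ' • τ) = f (infAff p 0 1 (swapW p σ τ))
    rw [infAff_swapW (Nat.pos_of_ne_zero (NeZero.ne p)) σ σ' h00 h01 h10 h11]⟩

end PSwap

end Fermat.Agent.S48.H88
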